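import Mathlib
import Fermat.Prelude.Def_ModularCurve_X0ModL

/-!
# S28, characteristic 0 side of the tower: basic consequences of the modular equation

* `evalHom y : ℤ[Y] →+* A`, `biEval Φ x y` : evaluation of a bivariate integer polynomial.
* `ModEqData p Φ` : the input from the formal modular equation, in the weak form needed
  here: over `ℂ((t))`, `Φ(X, J(t^p)) = (X - J(t^(p²))) ∏_{b<p} (X - r b)` with `r 0 = J` and
  every `r b` of order exactly `-1`.
* root identities `Φ(J(q^(dp)), J(q^d)) = 0 = Φ(J(q^d), J(q^(dp)))` over every commutative ring;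
* the monic step polynomials of degree `p + 1` and `p`.
-/

set_option autoImplicit false

noncomputable section

namespace Fermat.Agent.S28.Char0

open Polynomial ModularCurve

section BiEval

variable {A B : Type*} [CommRing A] [CommRing B]

/-- Evaluation `ℤ[Y] →+* A`, `Y ↦ y`. -/
def evalHom (y : A) : Polynomial ℤ →+* A := Polynomial.eval₂RingHom (Int.castRingHom A) y

@[simp] lemma evalHom_X (y : A) : evalHom y X = y := by simp [evalHom]

@[simp] lemma evalHom_C (y : A) (n : ℤ) : evalHom y (C n) = (n : A) := by simp [evalHom]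

lemma comp_evalHom (f : A →+* B) (y : A) : f.comp (evalHom y) = evalHom (f y) := by
  refine Polynomial.ringHom_ext (fun a => ?_) ?_
  · simp
  · simp

/-- Evaluation of a bivariate integer polynomial `Φ(X, Y)` at `X = x`, `Y = y`. -/
def biEval (Φ : Polynomial (Polynomial ℤ)) (x y : A) : A := Φ.eval₂ (evalHom y) x

lemma eval_map_evalHom (Φ : Polynomial (Polynomial ℤ)) (x y : A) :
    (Φ.map (evalHom y)).eval x = biEval Φ x y := by
  rw [biEval, Polynomial.eval_map]

lemma map_biEval (f : A →+* B) (Φ : Polynomial (Polynomial ℤ)) (x y : A) :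
    f (biEval Φ x y) = biEval Φ (f x) (f y) := by
  rw [biEval, Polynomial.hom_eval₂, comp_evalHom, biEval]

lemma map_map_evalHom (f : A →+* B) (Φ : Polynomial (Polynomial ℤ)) (y : A) :
    (Φ.map (evalHom y)).map f = Φ.map (evalHom (f y)) := by
  rw [Polynomial.map_map, comp_evalHom]

end BiEval

section CoeffMap

variable {R S : Type*} [CommRing R] [CommRing S]

lemma coeffMap_injective (f : R →+* S) (hf : Function.Injective f) :
    Function.Injective (coeffMap f) := by
  intro x y h
  ext k
  have h1 := congrArg (fun z : LaurentSeries S => z.coeff k) h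
  simp only [coeffMap_coeff] at h1
  exact hf h1

/-- `qExpand` composed with `qExpand`, with the index equation as a hypothesis. -/
lemma qExpand_qExpand_eq {a b c : ℕ} [NeZero a] [NeZero b] [NeZero c] (h : c = a * b)
    (f : LaurentSeries R) : qExpand R a (qExpand R b f) = qExpand R c f := by
  subst h
  exact qExpand_qExpand b a f

/-- `J(q^d)` has coefficient `1` at `q^(-d)`. -/
lemma coeff_qExpand_jqModC_neg (d : ℕ) [NeZero d] :
    (qExpand R d (jqModC R)).coeff (-(d : ℤ)) = 1 := by
  have h := qExpand_coeff_mul (R := R) d (jqModC R) (-1)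
  rw [mul_neg, mul_one] at h
  rw [h, coeff_jqModC_neg_one]

/-- `J(q^d)` has no coefficient below `q^(-d)`. -/
lemma coeff_qExpand_jqModC_of_lt (d : ℕ) [NeZero d] {k : ℤ} (hk : k < -(d : ℤ)) :
    (qExpand R d (jqModC R)).coeff k = 0 := by
  by_cases hdvd : (d : ℤ) ∣ k
  · obtain ⟨m, rfl⟩ := hdvd
    rw [qExpand_coeff_mul]
    have hd : (0 : ℤ) < d := by exact_mod_cast Nat.pos_of_ne_zero (NeZero.ne d)
    have hm : m < -1 := by
      by_contra hm
      rw [not_lt] at hm
      nlinarith
    exact coeff_jqModC_of_lt R hm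
  · exact qExpand_coeff_of_not_dvd d _ hdvd

end CoeffMap

/-- The input from the formal modular equation for the prime `p` (WP5), in the weak form
needed on the characteristic `0` side: the full list of roots of `Φ(X, J(t^p))` in `ℂ((t))`,
of which only the orders matter. -/
structure ModEqData (p : ℕ) [NeZero p] (Φ : Polynomial (Polynomial ℤ)) : Prop where
  monic : Φ.Monic
  natDegree_eq : Φ.natDegree = p + 1
  factor : ∃ r : ℕ → LaurentSeries ℂ, r 0 = jqModC ℂ ∧
    (∀ b, b < p → (r b).coeff (-1) ≠ 0 ∧ ∀ k : ℤ, k < -1 → (r b).coeff k = 0) ∧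
    Φ.map (evalHom (qExpand ℂ p (jqModC ℂ))) =
      (X - C (qExpand ℂ (p * p) (jqModC ℂ))) * ∏ b ∈ Finset.range p, (X - C (r b))

namespace ModEqData

variable {p : ℕ} [NeZero p] {Φ : Polynomial (Polynomial ℤ)}

lemma biEval_complex_sq (h : ModEqData p Φ) :
    biEval Φ (qExpand ℂ (p * p) (jqModC ℂ)) (qExpand ℂ p (jqModC ℂ)) = 0 := by
  obtain ⟨r, -, -, hfac⟩ := h.factor
  rw [← eval_map_evalHom, hfac]
  simp

lemma biEval_complex_one (h : ModEqData p Φ) :
    biEval Φ (jqModC ℂ) (qExpand ℂ p (jqModC ℂ)) = 0 := by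
  obtain ⟨r, hr0, -, hfac⟩ := h.factor
  rw [← eval_map_evalHom, hfac, eval_mul, eval_prod]
  have h0 : ∏ b ∈ Finset.range p, eval (jqModC ℂ) (X - C (r b)) = 0 :=
    Finset.prod_eq_zero (Finset.mem_range.mpr (Nat.pos_of_ne_zero (NeZero.ne p)))
      (by rw [hr0]; simp)
  rw [h0, mul_zero]

lemma biEval_int_sq (h : ModEqData p Φ) :
    biEval Φ (qExpand ℤ (p * p) (jqModC ℤ)) (qExpand ℤ p (jqModC ℤ)) = 0 := by
  apply coeffMap_injective (Int.castRingHom ℂ) (RingHom.injective_int _)
  rw [map_zero, map_biEval, coeffMap_qExpand, coeffMap_qExpand, coeffMap_jqModC]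
  exact h.biEval_complex_sq

lemma biEval_int_one (h : ModEqData p Φ) :
    biEval Φ (jqModC ℤ) (qExpand ℤ p (jqModC ℤ)) = 0 := by
  apply coeffMap_injective (Int.castRingHom ℂ) (RingHom.injective_int _)
  rw [map_zero, map_biEval, coeffMap_qExpand, coeffMap_jqModC]
  exact h.biEval_complex_one

variable (R : Type*) [CommRing R]

lemma biEval_sq (h : ModEqData p Φ) :
    biEval Φ (qExpand R (p * p) (jqModC R)) (qExpand R p (jqModC R)) = 0 := by
  have h1 := congrArg (coeffMap (Int.castRingHom R)) h.biEval_int_sq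
  rwa [map_zero, map_biEval, coeffMap_qExpand, coeffMap_qExpand, coeffMap_jqModC] at h1

lemma biEval_one (h : ModEqData p Φ) :
    biEval Φ (jqModC R) (qExpand R p (jqModC R)) = 0 := by
  have h1 := congrArg (coeffMap (Int.castRingHom R)) h.biEval_int_one
  rwa [map_zero, map_biEval, coeffMap_qExpand, coeffMap_jqModC] at h1

/-- `Φ(J(q^p), J(q)) = 0`. -/
lemma biEval_p (h : ModEqData p Φ) :
    biEval Φ (qExpand R p (jqModC R)) (jqModC R) = 0 := by
  apply qExpand_injective (R := R) p
  rw [map_zero, map_biEval, qExpand_qExpand]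
  exact h.biEval_sq R

/-- `Φ(J(q^(dp)), J(q^d)) = 0`: `J(q^(dp))` is a root of `Φ(X, J(q^d))`. -/
lemma biEval_mul (h : ModEqData p Φ) (d : ℕ) [NeZero d] :
    biEval Φ (qExpand R (d * p) (jqModC R)) (qExpand R d (jqModC R)) = 0 := by
  have h1 := congrArg (qExpand R d) (h.biEval_p R)
  rwa [map_zero, map_biEval, qExpand_qExpand] at h1

/-- `Φ(J(q^d), J(q^(dp))) = 0`: `J(q^d)` is a root of `Φ(X, J(q^(dp)))`. -/
lemma biEval_mul' (h : ModEqData p Φ) (d : ℕ) [NeZero d] :
    biEval Φ (qExpand R d (jqModC R)) (qExpand R (d * p) (jqModC R)) = 0 := by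
  have h1 := congrArg (qExpand R d) (h.biEval_one R)
  rwa [map_zero, map_biEval, qExpand_qExpand] at h1

end ModEqData

end Fermat.Agent.S28.Char0
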