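import Mathlib

/-!
# S28, characteristic 0 side: the "unique common root" lemma

If two polynomials over a field `K` become, over an extension `L`, products of linear factors
with exactly one common root `x₀` (simple in the first), then `x₀` comes from `K`.
-/

set_option autoImplicit false

namespace Fermat.Agent.S28.Char0

open Polynomial

/-- **Unique common root.** Let `ψ : K →+* L` be a homomorphism of fields and `A B : K[X]`.
If `A = (X - x₀) ∏ (X - r b)` and `B = (X - x₀) ∏ (X - r' c)` over `L`, with no `r b` equal to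
`x₀` or to some `r' c`, then `x₀` lies in the image of `K`. -/
theorem mem_range_of_common_root {K L : Type*} [Field K] [Field L] (ψ : K →+* L)
    (A B : K[X]) (x₀ : L) {ι ι' : Type*} (s : Finset ι) (s' : Finset ι') (r : ι → L)
    (r' : ι' → L)
    (hA : A.map ψ = (X - C x₀) * ∏ b ∈ s, (X - C (r b)))
    (hB : B.map ψ = (X - C x₀) * ∏ c ∈ s', (X - C (r' c)))
    (h1 : ∀ b ∈ s, r b ≠ x₀) (h2 : ∀ b ∈ s, ∀ c ∈ s', r b ≠ r' c) : x₀ ∈ ψ.range := by
  classical
  set G := EuclideanDomain.gcd A B with hG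
  have hmap : G.map ψ = EuclideanDomain.gcd (A.map ψ) (B.map ψ) := (Polynomial.gcd_map ψ).symm
  have hP0 : ∏ b ∈ s, (X - C (r b)) ≠ 0 :=
    Finset.prod_ne_zero_iff.mpr fun b _ => X_sub_C_ne_zero _
  have hA0 : A.map ψ ≠ 0 := by
    rw [hA]
    exact mul_ne_zero (X_sub_C_ne_zero _) hP0
  have hfA : G.map ψ ∣ A.map ψ := by
    rw [hmap]
    exact EuclideanDomain.gcd_dvd_left _ _
  have hfB : G.map ψ ∣ B.map ψ := by
    rw [hmap]
    exact EuclideanDomain.gcd_dvd_right _ _
  have hf0 : G.map ψ ≠ 0 := fun h0 => hA0 (by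
    rw [h0] at hfA
    exact zero_dvd_iff.mp hfA)
  have hxf : (X - C x₀) ∣ G.map ψ := by
    rw [hmap]
    refine EuclideanDomain.dvd_gcd ?_ ?_
    · rw [hA]
      exact dvd_mul_right _ _
    · rw [hB]
      exact dvd_mul_right _ _
  obtain ⟨f₁, hf₁⟩ := hxf
  have hf₁P : f₁ ∣ ∏ b ∈ s, (X - C (r b)) := by
    rw [hf₁, hA] at hfA
    exact (mul_dvd_mul_iff_left (X_sub_C_ne_zero x₀)).mp hfA
  have hsplit : f₁.Splits :=
    Splits.of_dvd (Splits.prod fun b _ => Splits.X_sub_C _) hP0 hf₁P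
  have hdeg : f₁.degree = 0 := by
    by_contra hne
    obtain ⟨y, hy⟩ := hsplit.exists_eval_eq_zero hne
    have hyP : (∏ b ∈ s, (X - C (r b))).eval y = 0 := by
      obtain ⟨g, hg⟩ := hf₁P
      rw [hg, eval_mul, hy, zero_mul]
    rw [eval_prod, Finset.prod_eq_zero_iff] at hyP
    obtain ⟨b, hb, hyb⟩ := hyP
    have hyb' : y = r b := by
      rw [eval_sub, eval_X, eval_C] at hyb
      exact sub_eq_zero.mp hyb
    have hyB : (B.map ψ).eval y = 0 := by
      obtain ⟨g, hg⟩ := hfB
      rw [hg, hf₁, eval_mul, eval_mul, hy, mul_zero, zero_mul]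
    rw [hB, eval_mul, eval_prod, mul_eq_zero, Finset.prod_eq_zero_iff] at hyB
    rcases hyB with h | ⟨c, hc, h⟩
    · rw [eval_sub, eval_X, eval_C] at h
      exact h1 b hb (by rw [← hyb']; exact sub_eq_zero.mp h)
    · rw [eval_sub, eval_X, eval_C] at h
      exact h2 b hb c hc (by rw [← hyb']; exact sub_eq_zero.mp h)
  have hu : f₁ = C (f₁.coeff 0) := eq_C_of_degree_eq_zero hdeg
  have hu0 : f₁.coeff 0 ≠ 0 := by
    intro h0
    rw [h0, C_0] at hu
    rw [hu, mul_zero] at hf₁
    exact hf0 hf₁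
  have hnat : G.natDegree = 1 := by
    have h3 : (G.map ψ).natDegree = 1 := by
      rw [hf₁, hu, natDegree_mul (X_sub_C_ne_zero _) (C_ne_zero.mpr hu0), natDegree_X_sub_C,
        natDegree_C]
    rwa [natDegree_map] at h3
  have hGeq := Polynomial.eq_X_add_C_of_natDegree_le_one hnat.le
  have ha : G.coeff 1 ≠ 0 := by
    have h4 := Polynomial.leadingCoeff_ne_zero.mpr (fun h0 : G = 0 => by
      rw [h0] at hnat
      simp at hnat)
    rwa [leadingCoeff, hnat] at h4
  have hev : (G.map ψ).eval x₀ = 0 := by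
    rw [hf₁, eval_mul, eval_sub, eval_X, eval_C, sub_self, zero_mul]
  rw [hGeq] at hev
  simp only [Polynomial.map_add, Polynomial.map_mul, map_C, map_X, eval_add, eval_mul, eval_C,
    eval_X] at hev
  refine ⟨-(G.coeff 0) / G.coeff 1, ?_⟩
  have hψa : ψ (G.coeff 1) ≠ 0 := (map_ne_zero ψ).mpr ha
  rw [map_div₀, map_neg]
  field_simp
  linear_combination -hev

end Fermat.Agent.S28.Char0
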