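import Fermat.Agent.S28.Char0.Generation

/-!
# S28, characteristic 0 side: generation for the reversed tower (task D8)

For `N = N' * p` and `m ≥ 1`, with `F_N^(m) := ℚ(J(q^(m d)) : d ∣ N)`:

  `F_{N' p}^(m) = F_{N'}^(m p) (J(q^m))`.

The divisors `d` of `N' p` divisible by `p` give generators of `F_{N'}^(m p)`.  For `d ∣ N'` prime
to `p` and a prime `r ∣ d`, `J(q^(m d))` is the unique common root of `Φ_r(X, J(q^(m d / r)))`
and `Φ_p(X, J(q^(m p d)))`, so by induction on `d` it lies in `F_{N'}^(m p) (J(q^m))`.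
-/

set_option autoImplicit false

noncomputable section

namespace Fermat.Agent.S28.Char0

open Polynomial ModularCurve IntermediateField

/-- **Unique common root**, second form: only `A` is given as a product of linear factors. -/
theorem mem_range_of_common_root' {K L : Type*} [Field K] [Field L] (ψ : K →+* L)
    (A B : K[X]) (x₀ : L) {ι : Type*} (s : Finset ι) (r : ι → L)
    (hA : A.map ψ = (X - C x₀) * ∏ b ∈ s, (X - C (r b)))
    (hB : (B.map ψ).eval x₀ = 0)
    (h2 : ∀ b ∈ s, (B.map ψ).eval (r b) ≠ 0) : x₀ ∈ ψ.range := by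
  classical
  set G := EuclideanDomain.gcd A B with hG
  have hmap : G.map ψ = EuclideanDomain.gcd (A.map ψ) (B.map ψ) := (Polynomial.gcd_map ψ).symm
  have hP0 : ∏ b ∈ s, (X - C (r b)) ≠ 0 :=
    Finset.prod_ne_zero_iff.mpr fun b _ => X_sub_C_ne_zero _
  have hA0 : A.map ψ ≠ 0 := by
    rw [hA]
    exact mul_ne_zero (X_sub_C_ne_zero _) hP0
  have hfA : G.map ψ ∣ A.map ψ := by
    rw [hmap]
    exact EuclideanDomain.gcd_dvd_left _ _
  have hfB : G.map ψ ∣ B.map ψ := by
    rw [hmap]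
    exact EuclideanDomain.gcd_dvd_right _ _
  have hf0 : G.map ψ ≠ 0 := fun h0 => hA0 (by
    rw [h0] at hfA
    exact zero_dvd_iff.mp hfA)
  have hxf : (X - C x₀) ∣ G.map ψ := by
    rw [hmap]
    refine EuclideanDomain.dvd_gcd ?_ ?_
    · rw [hA]
      exact dvd_mul_right _ _
    · exact dvd_iff_isRoot.mpr hB
  obtain ⟨f₁, hf₁⟩ := hxf
  have hf₁P : f₁ ∣ ∏ b ∈ s, (X - C (r b)) := by
    rw [hf₁, hA] at hfA
    exact (mul_dvd_mul_iff_left (X_sub_C_ne_zero x₀)).mp hfA
  have hsplit : f₁.Splits :=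
    Splits.of_dvd (Splits.prod fun b _ => Splits.X_sub_C _) hP0 hf₁P
  have hdeg : f₁.degree = 0 := by
    by_contra hne
    obtain ⟨y, hy⟩ := hsplit.exists_eval_eq_zero hne
    have hyP : (∏ b ∈ s, (X - C (r b))).eval y = 0 := by
      obtain ⟨g, hg⟩ := hf₁P
      rw [hg, eval_mul, hy, zero_mul]
    rw [eval_prod, Finset.prod_eq_zero_iff] at hyP
    obtain ⟨b, hb, hyb⟩ := hyP
    have hyb' : y = r b := by
      rw [eval_sub, eval_X, eval_C] at hyb
      exact sub_eq_zero.mp hyb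
    have hyB : (B.map ψ).eval y = 0 := by
      obtain ⟨g, hg⟩ := hfB
      rw [hg, hf₁, eval_mul, eval_mul, hy, mul_zero, zero_mul]
    rw [hyb'] at hyB
    exact h2 b hb hyB
  have hu : f₁ = C (f₁.coeff 0) := eq_C_of_degree_eq_zero hdeg
  have hu0 : f₁.coeff 0 ≠ 0 := by
    intro h0
    rw [h0, C_0] at hu
    rw [hu, mul_zero] at hf₁
    exact hf0 hf₁
  have hnat : G.natDegree = 1 := by
    have h3 : (G.map ψ).natDegree = 1 := by
      rw [hf₁, hu, natDegree_mul (X_sub_C_ne_zero _) (C_ne_zero.mpr hu0), natDegree_X_sub_C,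
        natDegree_C]
    rwa [natDegree_map] at h3
  have hGeq := Polynomial.eq_X_add_C_of_natDegree_le_one hnat.le
  have ha : G.coeff 1 ≠ 0 := by
    have h4 := Polynomial.leadingCoeff_ne_zero.mpr (fun h0 : G = 0 => by
      rw [h0] at hnat
      simp at hnat)
    rwa [leadingCoeff, hnat] at h4
  have hev : (G.map ψ).eval x₀ = 0 := by
    rw [hf₁, eval_mul, eval_sub, eval_X, eval_C, sub_self, zero_mul]
  rw [hGeq] at hev
  simp only [Polynomial.map_add, Polynomial.map_mul, map_C, map_X, eval_add, eval_mul, eval_C,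
    eval_X] at hev
  refine ⟨-(G.coeff 0) / G.coeff 1, ?_⟩
  have hψa : ψ (G.coeff 1) ≠ 0 := (map_ne_zero ψ).mpr ha
  rw [map_div₀, map_neg]
  field_simp
  linear_combination -hev

/-- **The middle of a chain is generated by its neighbours**: `J(q^(n r))` lies in
`ℚ(J(q^n), J(q^(n r p)))` (`r`, `p > 1` with modular equations; `r = p` is allowed). -/
theorem qExpand_mem_adjoin_chain {r p : ℕ} [NeZero r] [NeZero p] (hr : 1 < r) (hp : 1 < p)
    {Φ Φ' : Polynomial (Polynomial ℤ)} (h : ModEqData r Φ) (h' : ModEqData p Φ') (n : ℕ)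
    [NeZero n] :
    qExpand ℚ (n * r) jq ∈
      IntermediateField.adjoin ℚ
        ({qExpand ℚ n jq, qExpand ℚ (n * r * p) jq} : Set (LaurentSeries ℚ)) := by
  set K := IntermediateField.adjoin ℚ
    ({qExpand ℚ n jq, qExpand ℚ (n * r * p) jq} : Set (LaurentSeries ℚ)) with hK
  let a : K := ⟨qExpand ℚ n jq, subset_adjoin ℚ _ (Set.mem_insert _ _)⟩
  let a' : K := ⟨qExpand ℚ (n * r * p) jq,
    subset_adjoin ℚ _ (Set.mem_insert_of_mem _ (Set.mem_singleton _))⟩
  let θ : LaurentSeries ℚ →+* LaurentSeries ℂ := toComplex r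
  let ψ : K →+* LaurentSeries ℂ := θ.comp (algebraMap K (LaurentSeries ℚ))
  obtain ⟨ρ, hρ, hfac⟩ := h.factor_qExpand n
  obtain ⟨ρ', hρ'0, hρ', hfac0⟩ := h'.factor
  have hfac' : Φ'.map (evalHom (qExpand ℂ (n * r * r * p) (jqModC ℂ))) =
      (X - C (qExpand ℂ (n * r * r * (p * p)) (jqModC ℂ))) *
        ∏ b ∈ Finset.range p, (X - C (qExpand ℂ (n * r * r) (ρ' b))) := by
    have h1 := congrArg (Polynomial.map (qExpand ℂ (n * r * r))) hfac0
    rw [map_map_evalHom, qExpand_qExpand, Polynomial.map_mul, Polynomial.map_sub, map_X, map_C,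
      qExpand_qExpand, Polynomial.map_prod] at h1
    rw [h1]
    congr 1
    refine Finset.prod_congr rfl fun b _ => ?_
    rw [Polynomial.map_sub, map_X, map_C]
  have hx₀ : θ (qExpand ℚ (n * r) jq) = qExpand ℂ (n * (r * r)) (jqModC ℂ) :=
    toComplex_qExpand_jq _ _ _ (by ring)
  have hx₀' : θ (qExpand ℚ (n * r) jq) = qExpand ℂ (n * r * r) (jqModC ℂ) :=
    toComplex_qExpand_jq _ _ _ (by ring)
  have ha : ψ a = qExpand ℂ (n * r) (jqModC ℂ) :=
    toComplex_qExpand_jq _ _ _ (by ring)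
  have ha' : ψ a' = qExpand ℂ (n * r * r * p) (jqModC ℂ) :=
    toComplex_qExpand_jq _ _ _ (by ring)
  have hA : (Φ.map (evalHom a)).map ψ
      = (X - C (θ (qExpand ℚ (n * r) jq))) *
        ∏ b ∈ Finset.range r, (X - C (qExpand ℂ n (ρ b))) := by
    rw [map_map_evalHom, ha, hfac, hx₀]
  have hBmap : (Φ'.map (evalHom a')).map ψ
      = (X - C (qExpand ℂ (n * r * r * (p * p)) (jqModC ℂ))) *
        ∏ b ∈ Finset.range p, (X - C (qExpand ℂ (n * r * r) (ρ' b))) := by
    rw [map_map_evalHom, ha', hfac']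
  have hn : 0 < n := Nat.pos_of_ne_zero (NeZero.ne n)
  have hB : ((Φ'.map (evalHom a')).map ψ).eval (θ (qExpand ℚ (n * r) jq)) = 0 := by
    rw [hBmap, eval_mul, eval_prod]
    have h0 : ∏ b ∈ Finset.range p,
        eval (θ (qExpand ℚ (n * r) jq)) (X - C (qExpand ℂ (n * r * r) (ρ' b))) = 0 :=
      Finset.prod_eq_zero (Finset.mem_range.mpr (by omega : 0 < p))
        (by rw [hρ'0, hx₀']; simp)
    rw [h0, mul_zero]
  have h2 : ∀ b ∈ Finset.range r,
      ((Φ'.map (evalHom a')).map ψ).eval (qExpand ℂ n (ρ b)) ≠ 0 := by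
    intro b hb
    have hb' := hρ b (Finset.mem_range.mp hb)
    rw [hBmap, eval_mul, eval_prod, eval_sub, eval_X, eval_C]
    refine mul_ne_zero (sub_ne_zero.mpr ?_) (Finset.prod_ne_zero_iff.mpr fun c hc => ?_)
    · refine qExpand_ne_qExpand ?_ _ _ hb'.1 (fun k hk => coeff_jqModC_of_lt ℂ hk)
      intro heq
      have h4 : r * r * (p * p) = 1 :=
        Nat.eq_of_mul_eq_mul_left hn (by
          rw [mul_one]
          calc n * (r * r * (p * p)) = n * r * r * (p * p) := by ring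
            _ = n := heq.symm)
      have h5 : 4 ≤ r * r := by nlinarith
      have h6 : 4 ≤ p * p := by nlinarith
      nlinarith
    · rw [eval_sub, eval_X, eval_C]
      refine sub_ne_zero.mpr (qExpand_ne_qExpand ?_ _ _ hb'.1
        (hρ' c (Finset.mem_range.mp hc)).2)
      intro heq
      have h4 : r * r = 1 :=
        Nat.eq_of_mul_eq_mul_left hn (by
          rw [mul_one]
          calc n * (r * r) = n * r * r := by ring
            _ = n := heq.symm)
      nlinarith
  obtain ⟨k, hk⟩ := mem_range_of_common_root' ψ (Φ.map (evalHom a)) (Φ'.map (evalHom a'))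
    (θ (qExpand ℚ (n * r) jq)) _ _ hA hB h2
  have hk' : ((k : K) : LaurentSeries ℚ) = qExpand ℚ (n * r) jq :=
    toComplex_injective r hk
  rw [← hk']
  exact k.2

/-- The generators `J(q^(m d))`, `d ∣ N`, of the field `F_N^(m)`. -/
def levelGens (N m : ℕ) : Set (LaurentSeries ℚ) :=
  {x | ∃ (d : ℕ) (_ : NeZero (m * d)), d ∣ N ∧ x = qExpand ℚ (m * d) jq}

lemma mem_levelGens {N m d : ℕ} [NeZero (m * d)] (hd : d ∣ N) :
    qExpand ℚ (m * d) jq ∈ levelGens N m := ⟨d, ‹_›, hd, rfl⟩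

/-- `F_N^(1)` is the full modular function field of level `N`. -/
theorem adjoin_levelGens_one (N : ℕ) :
    IntermediateField.adjoin ℚ (levelGens N 1) = modularFunctionFieldFull N := by
  rw [modularFunctionFieldFull]
  congr 1
  ext x
  constructor
  · rintro ⟨d, hd, hdN, rfl⟩
    have hd' : NeZero d := ⟨by have := hd.out; simpa using this⟩
    exact ⟨d, hd', hdN, qExpand_congr (one_mul d) jq⟩
  · rintro ⟨d, hd, hdN, rfl⟩
    have hd' : NeZero (1 * d) := ⟨by have := hd.out; simpa using this⟩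
    exact ⟨d, hd', hdN, (qExpand_congr (one_mul d) jq).symm⟩

/-- Key step of D8: for `d ∣ N'` prime to `p`, `J(q^(m d)) ∈ F_{N'}^(m p) (J(q^m))`. -/
theorem qExpand_mem_adjoin_insert (N' p m : ℕ) [NeZero N'] [NeZero p] [NeZero m] (hp : p.Prime)
    (hΦ : ∀ r : ℕ, r.Prime → r ∣ N' * p →
      ∃ (_ : NeZero r) (Φ : Polynomial (Polynomial ℤ)), ModEqData r Φ) :
    ∀ d : ℕ, d ∣ N' → ¬ p ∣ d → ∀ [NeZero (m * d)],
      qExpand ℚ (m * d) jq ∈
        IntermediateField.adjoin ℚ (insert (qExpand ℚ m jq) (levelGens N' (m * p))) := by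
  intro d
  induction d using Nat.strong_induction_on with
  | _ d ih =>
    intro hdN hpd hmd
    by_cases hd1 : d = 1
    · subst hd1
      rw [qExpand_congr (mul_one m) jq]
      exact subset_adjoin ℚ _ (Set.mem_insert _ _)
    · obtain ⟨r, hr, hrd⟩ := Nat.exists_prime_and_dvd hd1
      obtain ⟨e, he⟩ := hrd
      have hd0 : d ≠ 0 := fun h0 => (NeZero.ne (m * d)) (by rw [h0, mul_zero])
      have he0 : e ≠ 0 := by
        rintro rfl
        exact hd0 (by rw [he, mul_zero])
      have hed : e < d := by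
        rw [he]
        nlinarith [hr.one_lt, Nat.pos_of_ne_zero he0]
      have heN : e ∣ N' := (Dvd.intro_left r he.symm).trans hdN
      have hpe : ¬ p ∣ e := fun hpe => hpd (hpe.trans (Dvd.intro_left r he.symm))
      have hm0 : m ≠ 0 := NeZero.ne m
      have : NeZero (m * e) := ⟨Nat.mul_ne_zero hm0 he0⟩
      have hm1 := ih e hed heN hpe
      have hrd' : r ∣ d := Dvd.intro e he.symm
      obtain ⟨hr0, Φr, hΦr⟩ := hΦ r hr ((hrd'.trans hdN).trans (Dvd.intro p rfl))
      obtain ⟨_, Φp, hΦp⟩ := hΦ p hp (Dvd.intro_left N' rfl)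
      have hchain := qExpand_mem_adjoin_chain hr.one_lt hp.one_lt hΦr hΦp (m * e)
      have hidx : m * e * r = m * d := by rw [he]; ring
      have hidx2 : m * e * r * p = m * p * d := by rw [he]; ring
      have : NeZero (m * p * d) := ⟨Nat.mul_ne_zero (Nat.mul_ne_zero hm0 hp.ne_zero) hd0⟩
      have hm2 : qExpand ℚ (m * e * r * p) jq ∈
          IntermediateField.adjoin ℚ (insert (qExpand ℚ m jq) (levelGens N' (m * p))) := by
        rw [qExpand_congr hidx2 jq]
        exact subset_adjoin ℚ _ (Set.mem_insert_of_mem _ (mem_levelGens hdN))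
      have hle : IntermediateField.adjoin ℚ
          ({qExpand ℚ (m * e) jq, qExpand ℚ (m * e * r * p) jq} : Set (LaurentSeries ℚ))
          ≤ IntermediateField.adjoin ℚ (insert (qExpand ℚ m jq) (levelGens N' (m * p))) := by
        rw [adjoin_le_iff]
        rintro x (rfl | rfl)
        · exact hm1
        · exact hm2
      have hmem := hle hchain
      rwa [qExpand_congr hidx jq] at hmem

/-- **Task D8 (generation for the reversed tower).**
`F_{N' p}^(m) = F_{N'}^(m p) (J(q^m))`. -/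
theorem adjoin_levelGens_mul_prime (N' p m : ℕ) [NeZero N'] [NeZero p] [NeZero m] (hp : p.Prime)
    (hΦ : ∀ r : ℕ, r.Prime → r ∣ N' * p →
      ∃ (_ : NeZero r) (Φ : Polynomial (Polynomial ℤ)), ModEqData r Φ) :
    IntermediateField.adjoin ℚ (levelGens (N' * p) m) =
      IntermediateField.adjoin ℚ (insert (qExpand ℚ m jq) (levelGens N' (m * p))) := by
  have hm0 : m ≠ 0 := NeZero.ne m
  refine le_antisymm ?_ ?_
  · rw [adjoin_le_iff]
    rintro x ⟨d, hd, hdN, rfl⟩
    by_cases hpd : p ∣ d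
    · obtain ⟨d', rfl⟩ := hpd
      have hd'N : d' ∣ N' := by
        rw [mul_comm N' p] at hdN
        exact Nat.dvd_of_mul_dvd_mul_left hp.pos hdN
      have hd'0 : d' ≠ 0 := fun h0 => (NeZero.ne (m * (p * d'))) (by rw [h0]; simp)
      have : NeZero (m * p * d') := ⟨Nat.mul_ne_zero (Nat.mul_ne_zero hm0 hp.ne_zero) hd'0⟩
      rw [qExpand_congr (mul_assoc m p d').symm jq]
      exact subset_adjoin ℚ _ (Set.mem_insert_of_mem _ (mem_levelGens hd'N))
    · have hdN' : d ∣ N' :=
        (Nat.Coprime.dvd_mul_right ((Nat.Prime.coprime_iff_not_dvd hp).mpr hpd).symm).mp hdN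
      exact qExpand_mem_adjoin_insert N' p m hp hΦ d hdN' hpd
  · rw [adjoin_le_iff]
    rintro x (rfl | ⟨d, hd, hdN, rfl⟩)
    · have : NeZero (m * 1) := ⟨by simpa using hm0⟩
      rw [← qExpand_congr (mul_one m) jq]
      exact subset_adjoin ℚ _ (mem_levelGens (one_dvd _))
    · have hd0 : d ≠ 0 := fun h0 => (NeZero.ne (m * p * d)) (by rw [h0, mul_zero])
      have : NeZero (m * (d * p)) :=
        ⟨Nat.mul_ne_zero hm0 (Nat.mul_ne_zero hd0 hp.ne_zero)⟩
      rw [qExpand_congr (by ring : m * p * d = m * (d * p)) jq]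
      exact subset_adjoin ℚ _ (mem_levelGens (Nat.mul_dvd_mul_right hdN p))

end Fermat.Agent.S28.Char0
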