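import Fermat.Agent.S28.Char0.Basic
import Fermat.Agent.S28.Char0.CommonRoot

/-!
# S28, characteristic 0 side: the function field is generated by the prime power levels

`ℚ(j(q^d) : d ∣ N) = ℚ(j(q^(p^k)) : p^k ∣ N)`.  For distinct primes `p, p'` dividing `d`,
`j(q^d)` is the unique common root of `Φ_p(X, j(q^(d/p)))` and `Φ_p'(X, j(q^(d/p')))`,
hence lies in `ℚ(j(q^(d/p)), j(q^(d/p')))`.
-/

set_option autoImplicit false

noncomputable section

namespace Fermat.Agent.S28.Char0

open Polynomial ModularCurve IntermediateField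

section Order

variable {R : Type*} [CommRing R]

/-- Two expansions `f(q^m)`, `g(q^m')` with `m ≠ m'`, `f` having a nonzero coefficient at
`q^(-1)` and `g` no coefficient below `q^(-1)`, are different. -/
lemma qExpand_ne_qExpand {m m' : ℕ} [NeZero m] [NeZero m'] (hmm : m ≠ m')
    (f g : LaurentSeries R) (hf : f.coeff (-1) ≠ 0) (hg : ∀ k : ℤ, k < -1 → g.coeff k = 0) :
    qExpand R m f ≠ qExpand R m' g := by
  intro heq
  have h1 := congrArg (fun z : LaurentSeries R => z.coeff ((m : ℤ) * (-1))) heq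
  simp only [qExpand_coeff_mul] at h1
  have hm : (0 : ℤ) < m := by exact_mod_cast Nat.pos_of_ne_zero (NeZero.ne m)
  have hm' : (0 : ℤ) < m' := by exact_mod_cast Nat.pos_of_ne_zero (NeZero.ne m')
  have h2 : (qExpand R m' g).coeff ((m : ℤ) * (-1)) = 0 := by
    by_cases hdvd : (m' : ℤ) ∣ (m : ℤ) * (-1)
    · obtain ⟨t, ht⟩ := hdvd
      rw [ht, qExpand_coeff_mul]
      refine hg t ?_
      by_contra hlt
      rw [not_lt] at hlt
      have ht0 : t < 0 := by
        by_contra ht0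
        rw [not_lt] at ht0
        nlinarith
      have ht1 : t = -1 := by omega
      rw [ht1] at ht
      exact hmm (by exact_mod_cast (by linarith : (m : ℤ) = m'))
    · exact qExpand_coeff_of_not_dvd m' _ hdvd
  rw [h2] at h1
  exact hf h1

end Order

/-- The composite `ℚ((q)) → ℂ((q)) → ℂ((s))`, `q ↦ s^n`. -/
def toComplex (n : ℕ) [NeZero n] : LaurentSeries ℚ →+* LaurentSeries ℂ :=
  (qExpand ℂ n).comp (coeffMap (algebraMap ℚ ℂ))

lemma toComplex_injective (n : ℕ) [NeZero n] : Function.Injective (toComplex n) :=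
  (qExpand_injective (R := ℂ) n).comp
    (coeffMap_injective (algebraMap ℚ ℂ) (algebraMap ℚ ℂ).injective)

lemma toComplex_qExpand_jq (n d c : ℕ) [NeZero n] [NeZero d] [NeZero c] (h : c = n * d) :
    toComplex n (qExpand ℚ d jq) = qExpand ℂ c (jqModC ℂ) := by
  have h1 : coeffMap (algebraMap ℚ ℂ) (qExpand ℚ d jq) = qExpand ℂ d (jqModC ℂ) := by
    rw [coeffMap_qExpand, ← jqModC_rat, coeffMap_jqModC]
  rw [toComplex, RingHom.comp_apply, h1]
  exact qExpand_qExpand_eq h _

/-- The roots of `Φ(X, J(s^(mp)))` in `ℂ((s))`. -/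
lemma ModEqData.factor_qExpand {p : ℕ} [NeZero p] {Φ : Polynomial (Polynomial ℤ)}
    (h : ModEqData p Φ) (m : ℕ) [NeZero m] :
    ∃ r : ℕ → LaurentSeries ℂ,
      (∀ b, b < p → (r b).coeff (-1) ≠ 0 ∧ ∀ k : ℤ, k < -1 → (r b).coeff k = 0) ∧
      Φ.map (evalHom (qExpand ℂ (m * p) (jqModC ℂ))) =
        (X - C (qExpand ℂ (m * (p * p)) (jqModC ℂ))) *
          ∏ b ∈ Finset.range p, (X - C (qExpand ℂ m (r b))) := by
  obtain ⟨r, -, hr, hfac⟩ := h.factor
  refine ⟨r, hr, ?_⟩
  have h1 := congrArg (Polynomial.map (qExpand ℂ m)) hfac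
  rw [map_map_evalHom, qExpand_qExpand, Polynomial.map_mul, Polynomial.map_sub, map_X, map_C,
    qExpand_qExpand, Polynomial.map_prod] at h1
  rw [h1]
  congr 1
  refine Finset.prod_congr rfl fun b _ => ?_
  rw [Polynomial.map_sub, map_X, map_C]

/-- **The gcd trick.** For distinct `p, p' > 1` with modular equations and `d = e p p'`,
`j(q^d) ∈ ℚ(j(q^(d/p)), j(q^(d/p')))`. -/
theorem qExpand_mem_adjoin_pair {p p' : ℕ} [NeZero p] [NeZero p'] (hp : 1 < p) (hp' : 1 < p')
    (hne : p ≠ p') {Φ Φ' : Polynomial (Polynomial ℤ)} (h : ModEqData p Φ)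
    (h' : ModEqData p' Φ') (e : ℕ) [NeZero e] :
    qExpand ℚ (e * p * p') jq ∈
      IntermediateField.adjoin ℚ
        ({qExpand ℚ (e * p') jq, qExpand ℚ (e * p) jq} : Set (LaurentSeries ℚ)) := by
  set K := IntermediateField.adjoin ℚ
    ({qExpand ℚ (e * p') jq, qExpand ℚ (e * p) jq} : Set (LaurentSeries ℚ)) with hK
  let a : K := ⟨qExpand ℚ (e * p') jq, subset_adjoin ℚ _ (Set.mem_insert _ _)⟩
  let a' : K := ⟨qExpand ℚ (e * p) jq,
    subset_adjoin ℚ _ (Set.mem_insert_of_mem _ (Set.mem_singleton _))⟩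
  let θ : LaurentSeries ℚ →+* LaurentSeries ℂ := toComplex (p * p')
  let ψ : K →+* LaurentSeries ℂ := θ.comp (algebraMap K (LaurentSeries ℚ))
  -- the two substitution exponents
  obtain ⟨r, hr, hfac⟩ := h.factor_qExpand (e * p' * p')
  obtain ⟨r', hr', hfac'⟩ := h'.factor_qExpand (e * p * p)
  have hx₀ : θ (qExpand ℚ (e * p * p') jq) = qExpand ℂ (e * p' * p' * (p * p)) (jqModC ℂ) :=
    toComplex_qExpand_jq _ _ _ (by ring)
  have hx₀' : θ (qExpand ℚ (e * p * p') jq) = qExpand ℂ (e * p * p * (p' * p')) (jqModC ℂ) :=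
    toComplex_qExpand_jq _ _ _ (by ring)
  have ha : ψ a = qExpand ℂ (e * p' * p' * p) (jqModC ℂ) :=
    toComplex_qExpand_jq _ _ _ (by ring)
  have ha' : ψ a' = qExpand ℂ (e * p * p * p') (jqModC ℂ) :=
    toComplex_qExpand_jq _ _ _ (by ring)
  have hA : (Φ.map (evalHom a)).map ψ
      = (X - C (θ (qExpand ℚ (e * p * p') jq))) *
        ∏ b ∈ Finset.range p, (X - C (qExpand ℂ (e * p' * p') (r b))) := by
    rw [map_map_evalHom, ha, hfac, hx₀]
  have hB : (Φ'.map (evalHom a')).map ψ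
      = (X - C (θ (qExpand ℚ (e * p * p') jq))) *
        ∏ c ∈ Finset.range p', (X - C (qExpand ℂ (e * p * p) (r' c))) := by
    rw [map_map_evalHom, ha', hfac', hx₀']
  have he : 0 < e := Nat.pos_of_ne_zero (NeZero.ne e)
  have h1 : ∀ b ∈ Finset.range p,
      qExpand ℂ (e * p' * p') (r b) ≠ θ (qExpand ℚ (e * p * p') jq) := by
    intro b hb
    rw [hx₀]
    refine qExpand_ne_qExpand ?_ _ _ (hr b (Finset.mem_range.mp hb)).1
      (fun k hk => coeff_jqModC_of_lt ℂ hk)
    have h3 : 0 < e * p' * p' := Nat.mul_pos (Nat.mul_pos he (by omega)) (by omega)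
    intro heq
    have h4 : p * p = 1 := Nat.eq_of_mul_eq_mul_left h3 (by rw [mul_one]; exact heq.symm)
    nlinarith
  have h2 : ∀ b ∈ Finset.range p, ∀ c ∈ Finset.range p',
      qExpand ℂ (e * p' * p') (r b) ≠ qExpand ℂ (e * p * p) (r' c) := by
    intro b hb c hc
    refine qExpand_ne_qExpand ?_ _ _ (hr b (Finset.mem_range.mp hb)).1
      (hr' c (Finset.mem_range.mp hc)).2
    intro heq
    have h4 : p' * p' = p * p := by
      have : e * (p' * p') = e * (p * p) := by rw [← mul_assoc, ← mul_assoc]; exact heq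
      exact Nat.eq_of_mul_eq_mul_left he this
    exact hne (Nat.mul_self_inj.mp h4).symm
  obtain ⟨k, hk⟩ := mem_range_of_common_root ψ (Φ.map (evalHom a)) (Φ'.map (evalHom a'))
    (θ (qExpand ℚ (e * p * p') jq)) _ _ _ _ hA hB h1 h2
  have hk' : ((k : K) : LaurentSeries ℚ) = qExpand ℚ (e * p * p') jq :=
    toComplex_injective (p * p') hk
  rw [← hk']
  exact k.2

/-- The expansions `j(q^(p^k))` at the prime power divisors of `N` (including `j(q)`). -/
def primePowerExpansions (N : ℕ) : Set (LaurentSeries ℚ) :=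
  {x | ∃ (p k : ℕ) (_ : NeZero (p ^ k)), p.Prime ∧ p ^ k ∣ N ∧ x = qExpand ℚ (p ^ k) jq}

/-- Every `j(q^d)`, `d ∣ N`, lies in the field generated by the prime power levels. -/
theorem qExpand_mem_adjoin_primePowers (N : ℕ)
    (hΦ : ∀ p : ℕ, p.Prime → p ∣ N →
      ∃ (_ : NeZero p) (Φ : Polynomial (Polynomial ℤ)), ModEqData p Φ) :
    ∀ d : ℕ, d ∣ N → ∀ [NeZero d],
      qExpand ℚ d jq ∈ IntermediateField.adjoin ℚ (primePowerExpansions N) := by
  intro d
  induction d using Nat.strong_induction_on with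
  | _ d ih =>
    intro hdN hd
    by_cases hd1 : d = 1
    · subst hd1
      exact subset_adjoin ℚ _ ⟨2, 0, ⟨by norm_num⟩, Nat.prime_two, by simp, rfl⟩
    by_cases hpp : IsPrimePow d
    · obtain ⟨p, k, hp, -, rfl⟩ := (isPrimePow_nat_iff d).mp hpp
      exact subset_adjoin ℚ _ ⟨p, k, hd, hp, hdN, rfl⟩
    · -- two distinct prime factors
      obtain ⟨p, hp, hpd⟩ := Nat.exists_prime_and_dvd hd1
      have hex : ∃ p' : ℕ, p'.Prime ∧ p' ∣ d ∧ p' ≠ p := by
        by_contra hcon
        push Not at hcon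
        exact hpp ((isPrimePow_iff_unique_prime_dvd).mpr
          ⟨p, ⟨hp, hpd⟩, fun q hq => hcon q hq.1 hq.2⟩)
      obtain ⟨p', hp', hp'd, hne⟩ := hex
      have hcop : Nat.Coprime p p' := (Nat.coprime_primes hp hp').mpr (Ne.symm hne)
      obtain ⟨e, he⟩ := hcop.mul_dvd_of_dvd_of_dvd hpd hp'd
      have hd0 : d ≠ 0 := NeZero.ne d
      have he0 : e ≠ 0 := by
        rintro rfl
        exact hd0 (by rw [he, mul_zero])
      have hde : d = e * p * p' := by rw [he]; ring
      obtain ⟨hp0, Φ, hΦp⟩ := hΦ p hp (hpd.trans hdN)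
      obtain ⟨hp'0, Φ', hΦp'⟩ := hΦ p' hp' (hp'd.trans hdN)
      have : NeZero e := ⟨he0⟩
      have h1 : e * p' < d := by
        rw [hde]
        have : 0 < e * p' := Nat.mul_pos (Nat.pos_of_ne_zero he0) hp'.pos
        nlinarith [hp.one_lt]
      have h2 : e * p < d := by
        rw [hde]
        have : 0 < e * p := Nat.mul_pos (Nat.pos_of_ne_zero he0) hp.pos
        nlinarith [hp'.one_lt]
      have hm1 := ih (e * p') h1 ((Dvd.intro_left p (by rw [hde]; ring)).trans hdN)
      have hm2 := ih (e * p) h2 ((Dvd.intro p' (by rw [hde])).trans hdN)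
      have hle : IntermediateField.adjoin ℚ
          ({qExpand ℚ (e * p') jq, qExpand ℚ (e * p) jq} : Set (LaurentSeries ℚ))
          ≤ IntermediateField.adjoin ℚ (primePowerExpansions N) := by
        rw [adjoin_le_iff]
        rintro x (rfl | rfl)
        · exact hm1
        · exact hm2
      have hmem := hle (qExpand_mem_adjoin_pair hp.one_lt hp'.one_lt (Ne.symm hne) hΦp hΦp' e)
      rwa [qExpand_congr hde.symm] at hmem

/-- **Generation.** `ℚ(j(q^d) : d ∣ N)` is generated by the `j(q^(p^k))`, `p^k ∣ N`. -/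
theorem full_eq_adjoin_primePowers (N : ℕ)
    (hΦ : ∀ p : ℕ, p.Prime → p ∣ N →
      ∃ (_ : NeZero p) (Φ : Polynomial (Polynomial ℤ)), ModEqData p Φ) :
    modularFunctionFieldFull N = IntermediateField.adjoin ℚ (primePowerExpansions N) := by
  refine le_antisymm ?_ ?_
  · rw [modularFunctionFieldFull, adjoin_le_iff]
    rintro x ⟨d, hd, hdN, rfl⟩
    exact qExpand_mem_adjoin_primePowers N hΦ d hdN
  · refine IntermediateField.adjoin.mono ℚ _ _ ?_
    rintro x ⟨p, k, hpk, -, hdvd, rfl⟩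
    exact ⟨p ^ k, hpk, hdvd, rfl⟩

end Fermat.Agent.S28.Char0
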