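import Fermat.Agent.S28.Char0.Basic

/-!
# S28, characteristic 0 side of the tower: the monic step polynomials

For a prime `p` with modular equation `Φ` and every `d ≥ 1`, over any field `K`:

* `J(q^(dp))` is a root of a monic polynomial of degree `p + 1` with coefficients in
  `ℤ[J(q^d)]` (namely `Φ(X, J(q^d))`);
* `J(q^(dp²))` is a root of a monic polynomial of degree `p` with coefficients in
  `ℤ[J(q^(dp)), J(q^d)]` (namely `Φ(X, J(q^(dp))) / (X - J(q^d))`).
-/

set_option autoImplicit false

noncomputable section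

namespace Fermat.Agent.S28.Char0

open Polynomial ModularCurve

variable {p : ℕ} [NeZero p] {Φ : Polynomial (Polynomial ℤ)}

/-- **Step polynomial, first kind**: `J(q^(dp))` is a root of a monic polynomial of degree
`p + 1` over `ℤ[J(q^d)]`. -/
theorem exists_step_first (h : ModEqData p Φ) (K : Type*) [Field K] (d : ℕ) [NeZero d] :
    ∃ g : Polynomial (Algebra.adjoin ℤ {qExpand K d (jqModC K)}),
      g.Monic ∧ g.natDegree = p + 1 ∧ aeval (qExpand K (d * p) (jqModC K)) g = 0 := by
  set S := Algebra.adjoin ℤ {qExpand K d (jqModC K)} with hS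
  let y : S := ⟨qExpand K d (jqModC K), Algebra.subset_adjoin (Set.mem_singleton _)⟩
  refine ⟨Φ.map (evalHom y), h.monic.map _, ?_, ?_⟩
  · rw [(h.monic).natDegree_map, h.natDegree_eq]
  · rw [aeval_def, eval₂_map]
    have h1 : (algebraMap S (LaurentSeries K)).comp (evalHom y)
        = evalHom (qExpand K d (jqModC K)) := comp_evalHom _ y
    rw [h1]
    exact h.biEval_mul K d

/-- `J(q^(dp²)) ≠ J(q^d)` for `p > 1`. -/
lemma qExpand_jqModC_ne (hp : 1 < p) (K : Type*) [Field K] (d : ℕ) [NeZero d] :
    qExpand K (d * p * p) (jqModC K) ≠ qExpand K d (jqModC K) := by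
  intro heq
  have h1 := congrArg (fun z : LaurentSeries K => z.coeff (-(d : ℤ))) heq
  simp only [coeff_qExpand_jqModC_neg] at h1
  have hd : (0 : ℤ) < d := by exact_mod_cast Nat.pos_of_ne_zero (NeZero.ne d)
  have h2 : (qExpand K (d * p * p) (jqModC K)).coeff (-(d : ℤ)) = 0 := by
    refine qExpand_coeff_of_not_dvd _ _ ?_
    rintro ⟨c, hc⟩
    push_cast at hc
    have hp' : (1 : ℤ) < p := by exact_mod_cast hp
    have hc' : (d : ℤ) * ((p : ℤ) * p * c + 1) = 0 := by linarith
    rcases mul_eq_zero.mp hc' with h | h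
    · omega
    · have hc0 : c < 0 := by
        by_contra hc0
        rw [not_lt] at hc0
        nlinarith [mul_nonneg (mul_nonneg (by linarith : (0 : ℤ) ≤ p) (by linarith : (0 : ℤ) ≤ p)) hc0]
      nlinarith [mul_pos (by linarith : (0 : ℤ) < p) (by linarith : (0 : ℤ) < p)]
  rw [h2] at h1
  exact zero_ne_one h1

/-- **Step polynomial, second kind**: `J(q^(dp²))` is a root of a monic polynomial of degree
`p` over `ℤ[J(q^(dp)), J(q^d)]`. -/
theorem exists_step_next (h : ModEqData p Φ) (hp : 1 < p) (K : Type*) [Field K] (d : ℕ)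
    [NeZero d] :
    ∃ g : Polynomial (Algebra.adjoin ℤ
        {qExpand K (d * p) (jqModC K), qExpand K d (jqModC K)}),
      g.Monic ∧ g.natDegree = p ∧ aeval (qExpand K (d * p * p) (jqModC K)) g = 0 := by
  set S := Algebra.adjoin ℤ {qExpand K (d * p) (jqModC K), qExpand K d (jqModC K)} with hS
  let y : S := ⟨qExpand K (d * p) (jqModC K), Algebra.subset_adjoin (Set.mem_insert _ _)⟩
  let z : S := ⟨qExpand K d (jqModC K),
    Algebra.subset_adjoin (Set.mem_insert_of_mem _ (Set.mem_singleton _))⟩
  set P : Polynomial S := Φ.map (evalHom y) with hP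
  have hPm : P.Monic := h.monic.map _
  have hPd : P.natDegree = p + 1 := by rw [hP, (h.monic).natDegree_map, h.natDegree_eq]
  have hcomp : (algebraMap S (LaurentSeries K)).comp (evalHom y)
      = evalHom (qExpand K (d * p) (jqModC K)) := comp_evalHom _ y
  have haeval : ∀ x : LaurentSeries K,
      aeval x P = biEval Φ x (qExpand K (d * p) (jqModC K)) := by
    intro x
    rw [hP, aeval_def, eval₂_map, hcomp]
    rfl
  have hroot : P.IsRoot z := by
    rw [IsRoot.def]
    have h1 : aeval (z : LaurentSeries K) P = 0 := (haeval _).trans (h.biEval_mul' K d)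
    have h2 : aeval (z : LaurentSeries K) P = ((P.eval z : S) : LaurentSeries K) := by
      rw [aeval_def]
      exact (Polynomial.hom_eval₂ P (RingHom.id S) (algebraMap S (LaurentSeries K)) z).symm
    rw [h2] at h1
    exact Subtype.ext h1
  have hmul : (X - C z) * (P /ₘ (X - C z)) = P := mul_divByMonic_eq_iff_isRoot.mpr hroot
  refine ⟨P /ₘ (X - C z), ?_, ?_, ?_⟩
  · have hdeg : (X - C z).degree ≤ P.degree := by
      rw [degree_X_sub_C, degree_eq_natDegree hPm.ne_zero, hPd]
      exact_mod_cast Nat.succ_le_succ (Nat.zero_le p)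
    have hl := leadingCoeff_divByMonic_of_monic (monic_X_sub_C z) hdeg
    rw [hPm.leadingCoeff] at hl
    exact hl
  · rw [natDegree_divByMonic _ (monic_X_sub_C z), hPd, natDegree_X_sub_C]
    rfl
  · have h1 := congrArg (aeval (qExpand K (d * p * p) (jqModC K))) hmul
    have h2 : aeval (qExpand K (d * p * p) (jqModC K)) P = 0 :=
      (haeval _).trans (h.biEval_mul K (d * p))
    rw [map_mul, h2] at h1
    have h3 : aeval (qExpand K (d * p * p) (jqModC K)) (X - C z)
        = qExpand K (d * p * p) (jqModC K) - qExpand K d (jqModC K) := by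
      rw [aeval_def, eval₂_sub, eval₂_X, eval₂_C]
      rfl
    rw [h3] at h1
    rcases mul_eq_zero.mp h1 with h4 | h4
    · exact absurd (sub_eq_zero.mp h4) (qExpand_jqModC_ne hp K d)
    · exact h4

end Fermat.Agent.S28.Char0
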